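import Mathlib
import Fermat.Agent.LT.T7.H290.CoreSpec
import Fermat.Agent.LT.T3.H57.ROpTop
import Fermat.Agent.LT.T1.H793.Height
import Fermat.Agent.LT.T1.H793.K0Compact

/-!
# Row LT, tower T7, leaf T7.14.6a-C.4 `ThetaSetC290` (helper793, OFF-MAIN), part 1:
# the compact group `𝒰(𝔪) = U(𝔪) K_∞`

* `idealClosure_mul_int793` : `𝔪 𝒪_v` is an `𝒪_v`-module;
* `isCpt_one793`, `isCpt_mul793`, `isCpt_inv793` : `𝒰(𝔪)` (`H290.IsCpt290`) is a group;
* `isCompact_cptSet793` : `𝒰(𝔪)` is compact.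
-/

set_option autoImplicit false

open IsDedekindDomain NumberField Topology
open Fermat.Agent.LT.H556.A0

noncomputable section

namespace Fermat.Agent.LT.T7.H793

open Fermat.Agent.LT.T1 Fermat.Agent.LT.T1.H793 Fermat.Agent.LT.T3.H57
open Fermat.Agent.LT.T7.Rigid.H290

variable {K : Type} [Field K] [NumberField K]

/-! ## The closure of an ideal is a module over `𝒪_v` -/

lemma idealClosure_mul_int793 (𝔫 : Ideal (𝓞 K)) (v : HeightOneSpectrum (𝓞 K))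
    {x y : v.adicCompletion K} (hx : x ∈ idealClosure 𝔫 v)
    (hy : y ∈ v.adicCompletionIntegers K) : x * y ∈ idealClosure 𝔫 v := by
  have h : Continuous fun p : v.adicCompletion K × v.adicCompletion K => p.1 * p.2 :=
    continuous_mul
  refine map_mem_closure₂ h hx (integers_subset_closure57 v hy) ?_
  rintro _ ⟨a, ha, rfl⟩ _ ⟨r, rfl⟩
  exact ⟨a * r, 𝔫.mul_mem_right r ha, by simp⟩

lemma idealClosure_neg793 (𝔫 : Ideal (𝓞 K)) (v : HeightOneSpectrum (𝓞 K))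
    {x : v.adicCompletion K} (hx : x ∈ idealClosure 𝔫 v) : -x ∈ idealClosure 𝔫 v := by
  have h : Continuous fun p : v.adicCompletion K => -p := continuous_neg
  refine map_mem_closure h hx ?_
  rintro _ ⟨a, ha, rfl⟩
  exact ⟨-a, 𝔫.neg_mem ha, by simp⟩

/-! ## `U(𝔪)_f` is a group -/

lemma inU0_int793 {𝔪 : Ideal (𝓞 K)} {x : G K} (hx : InU057 𝔪 x)
    (v : HeightOneSpectrum (𝓞 K)) : IsIntegralAt v x ∧ IsIntegralAt v x⁻¹ := by
  have key : ∀ (M : Matrix (Fin 2) (Fin 2) (v.adicCompletion K)) (i j : Fin 2),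
      (M - 1) i j ∈ idealClosure 𝔪 v → M i j ∈ v.adicCompletionIntegers K := by
    intro M i j h
    have h1 := idealClosure_subset57 𝔪 v h
    have h2 : (1 : Matrix (Fin 2) (Fin 2) (v.adicCompletion K)) i j
        ∈ v.adicCompletionIntegers K := by
      rw [Matrix.one_apply]
      split_ifs
      · exact one_mem _
      · exact zero_mem _
    have : M i j = (M - 1) i j + (1 : Matrix (Fin 2) (Fin 2) (v.adicCompletion K)) i j := by
      rw [Matrix.sub_apply, sub_add_cancel]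
    rw [this]
    exact add_mem h1 h2
  exact ⟨fun i j => key _ i j (hx v i j).1, fun i j => key _ i j (hx v i j).2⟩

lemma inU0_one793 (𝔪 : Ideal (𝓞 K)) : InU057 𝔪 (1 : G K) := by
  intro v i j
  rw [inv_one, finComp_one793, sub_self]
  exact ⟨zero_mem_idealClosure57 𝔪 v, zero_mem_idealClosure57 𝔪 v⟩

lemma inU0_inv793 {𝔪 : Ideal (𝓞 K)} {x : G K} (hx : InU057 𝔪 x) : InU057 𝔪 x⁻¹ := by
  intro v i j
  rw [inv_inv]
  exact ⟨(hx v i j).2, (hx v i j).1⟩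

/-- `(A - 1) B + (B - 1) = A B - 1`, entrywise in the closure of `𝔪`. -/
lemma mul_sub_one_mem793 (𝔪 : Ideal (𝓞 K)) (v : HeightOneSpectrum (𝓞 K))
    (A B : Matrix (Fin 2) (Fin 2) (v.adicCompletion K))
    (hA : ∀ i j, (A - 1) i j ∈ idealClosure 𝔪 v) (hB : ∀ i j, (B - 1) i j ∈ idealClosure 𝔪 v)
    (hBint : ∀ i j, B i j ∈ v.adicCompletionIntegers K) (i j : Fin 2) :
    (A * B - 1) i j ∈ idealClosure 𝔪 v := by
  have e : A * B - 1 = (A - 1) * B + (B - 1) := by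
    rw [Matrix.sub_mul, Matrix.one_mul]
    abel
  rw [e, Matrix.add_apply, Matrix.mul_apply, Fin.sum_univ_two]
  refine add_mem_idealClosure57 𝔪 v (add_mem_idealClosure57 𝔪 v ?_ ?_) (hB i j)
  · exact idealClosure_mul_int793 𝔪 v (hA i 0) (hBint 0 j)
  · exact idealClosure_mul_int793 𝔪 v (hA i 1) (hBint 1 j)

lemma inU0_mul793 {𝔪 : Ideal (𝓞 K)} {x y : G K} (hx : InU057 𝔪 x) (hy : InU057 𝔪 y) :
    InU057 𝔪 (x * y) := by
  intro v i j
  constructor
  · rw [finComp_mul793]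
    exact mul_sub_one_mem793 𝔪 v _ _ (fun i j => (hx v i j).1) (fun i j => (hy v i j).1)
      (fun i j => (inU0_int793 hy v).1 i j) i j
  · rw [mul_inv_rev, finComp_mul793]
    exact mul_sub_one_mem793 𝔪 v _ _ (fun i j => (hy v i j).2) (fun i j => (hx v i j).2)
      (fun i j => (inU0_int793 hx v).2 i j) i j

/-! ## `𝒰(𝔪)` is a compact group -/

lemma isCpt_iff793 (𝔪 : Ideal (𝓞 K)) (κ : G K) :
    IsCpt290 𝔪 κ ↔ InU057 𝔪 κ ∧ IsStdCompact K κ := by
  constructor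
  · rintro ⟨h1, h2⟩
    exact ⟨h1, fun v => inU0_int793 h1 v, h2⟩
  · rintro ⟨h1, h2⟩
    exact ⟨h1, h2.2⟩

lemma isCpt_one793 (𝔪 : Ideal (𝓞 K)) : IsCpt290 𝔪 (1 : G K) :=
  (isCpt_iff793 𝔪 1).mpr ⟨inU0_one793 𝔪, isStdCompact_one793⟩

lemma isCpt_mul793 {𝔪 : Ideal (𝓞 K)} {κ κ' : G K} (h : IsCpt290 𝔪 κ) (h' : IsCpt290 𝔪 κ') :
    IsCpt290 𝔪 (κ * κ') := by
  rw [isCpt_iff793] at h h' ⊢
  exact ⟨inU0_mul793 h.1 h'.1, isStdCompact_mul793 h.2 h'.2⟩

lemma isCpt_inv793 {𝔪 : Ideal (𝓞 K)} {κ : G K} (h : IsCpt290 𝔪 κ) : IsCpt290 𝔪 κ⁻¹ := by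
  rw [isCpt_iff793] at h ⊢
  exact ⟨inU0_inv793 h.1, isStdCompact_inv793 h.2⟩

/-- The set `𝒰(𝔪)`. -/
def cptSet793 (𝔪 : Ideal (𝓞 K)) : Set (G K) := {κ | IsCpt290 𝔪 κ}

lemma isClosed_inU0_793 (𝔪 : Ideal (𝓞 K)) : IsClosed {x : G K | InU057 𝔪 x} := by
  have hset : {x : G K | InU057 𝔪 x}
      = ⋂ v : HeightOneSpectrum (𝓞 K), ⋂ i : Fin 2, ⋂ j : Fin 2,
          ({k : G K | finComp v k i j - (1 : Matrix (Fin 2) (Fin 2) (v.adicCompletion K)) i j
              ∈ idealClosure 𝔪 v}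
            ∩ {k : G K | finComp v k⁻¹ i j
              - (1 : Matrix (Fin 2) (Fin 2) (v.adicCompletion K)) i j ∈ idealClosure 𝔪 v}) := by
    ext k
    simp only [Set.mem_inter_iff, Set.mem_iInter]
    rfl
  rw [hset]
  refine isClosed_iInter fun v => isClosed_iInter fun i => isClosed_iInter fun j => ?_
  have hO : IsClosed (idealClosure 𝔪 v) := isClosed_closure
  exact (hO.preimage ((continuous_finComp_entry793 v i j).sub continuous_const)).inter
    (hO.preimage ((continuous_finComp_inv_entry793 v i j).sub continuous_const))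

/-- **`𝒰(𝔪)` is compact.** -/
theorem isCompact_cptSet793 (𝔪 : Ideal (𝓞 K)) : IsCompact (cptSet793 (K := K) 𝔪) := by
  have hset : cptSet793 (K := K) 𝔪 = {k : G K | IsStdCompact K k} ∩ {x : G K | InU057 𝔪 x} := by
    ext κ
    show IsCpt290 𝔪 κ ↔ _
    rw [isCpt_iff793]
    exact ⟨fun h => ⟨h.2, h.1⟩, fun h => ⟨h.2, h.1⟩⟩
  rw [hset]
  exact (isCompact_stdCompact793 K).inter_right (isClosed_inU0_793 𝔪)

end Fermat.Agent.LT.T7.H793

end
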