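import Mathlib
import Fermat.Agent.LT.T7.H793.ThetaCpt
import Fermat.Agent.LT.T1.H793.IwasawaAdelic
import Fermat.Agent.LT.H11.LC
import Fermat.Agent.LT.H11.SC

/-!
# Row LT, tower T7, leaf T7.14.6a-C.4 `ThetaSetC290` (helper793, OFF-MAIN), part 2:
# the Borel coordinates `ι : 𝔸 × 𝔸ˣ × 𝔸ˣ → GL₂(𝔸)` and the cell `Ω = ι(P) 𝒰(𝔪)`

* `continuous_iota793` : `ι = H57.iota57` is continuous;
* `isClosed_upSet793`, `exists_iota793` : the range of `ι` is the closed set of the upper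
  triangular elements;
* `isCompact_iota_preimage793` : the preimage of a compact set under `ι` is compact;
* `inU0_subset_cell793` : `G_∞ × U(𝔪)_f ⊆ ι(P) 𝒰(𝔪)` (archimedean Iwasawa decomposition).
-/

set_option autoImplicit false

open IsDedekindDomain NumberField Topology
open Fermat.Agent.LT.H556.A0
open Fermat.Agent.LT.H11.LC

noncomputable section

namespace Fermat.Agent.LT.T7.H793

open Fermat.Agent.LT.T1 Fermat.Agent.LT.T1.H793 Fermat.Agent.LT.T3.H57
open Fermat.Agent.LT.T7.Rigid Fermat.Agent.LT.T7.Rigid.H290 Fermat.Agent.LT.T7.H57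

variable {K : Type} [Field K] [NumberField K]

/-! ## The entries of `ι(p)` -/

lemma iota_val793 (p : Adl K × (Adl K)ˣ × (Adl K)ˣ) :
    ((iota57 K p : G K) : Matrix (Fin 2) (Fin 2) (Adl K))
      = !![(p.2.1 : Adl K) * (p.2.2 : Adl K), p.1 * (p.2.2 : Adl K); 0, (p.2.2 : Adl K)] := by
  unfold iota57
  rw [Units.val_mul, Units.val_mul]
  show (!![1, p.1; 0, 1] : Matrix (Fin 2) (Fin 2) (Adl K)) * !![(p.2.1 : Adl K), 0; 0, 1]
      * !![(p.2.2 : Adl K), 0; 0, (p.2.2 : Adl K)] = _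
  ext i j
  fin_cases i <;> fin_cases j <;> simp [Matrix.mul_apply, Fin.sum_univ_two]

lemma iota_inv_val793 (p : Adl K × (Adl K)ˣ × (Adl K)ˣ) :
    (((iota57 K p)⁻¹ : G K) : Matrix (Fin 2) (Fin 2) (Adl K))
      = !![((p.2.1⁻¹ : (Adl K)ˣ) : Adl K) * ((p.2.2⁻¹ : (Adl K)ˣ) : Adl K),
            -(p.1 * ((p.2.1⁻¹ : (Adl K)ˣ) : Adl K) * ((p.2.2⁻¹ : (Adl K)ˣ) : Adl K));
          0, ((p.2.2⁻¹ : (Adl K)ˣ) : Adl K)] := by
  unfold iota57
  rw [mul_inv_rev, mul_inv_rev, Units.val_mul, Units.val_mul]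
  show (!![((p.2.2⁻¹ : (Adl K)ˣ) : Adl K), 0; 0, ((p.2.2⁻¹ : (Adl K)ˣ) : Adl K)] :
        Matrix (Fin 2) (Fin 2) (Adl K))
      * (!![((p.2.1⁻¹ : (Adl K)ˣ) : Adl K), 0; 0, 1] * !![1, -p.1; 0, 1]) = _
  ext i j
  fin_cases i <;> fin_cases j <;> simp [Matrix.mul_apply, Fin.sum_univ_two, mul_comm]

/-- `ι` is continuous. -/
theorem continuous_iota793 : Continuous (iota57 K) := by
  rw [Units.continuous_iff]
  constructor
  · have : (Units.val ∘ iota57 K : Adl K × (Adl K)ˣ × (Adl K)ˣ → Matrix (Fin 2) (Fin 2) (Adl K))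
        = fun p => !![(p.2.1 : Adl K) * (p.2.2 : Adl K), p.1 * (p.2.2 : Adl K);
            0, (p.2.2 : Adl K)] := funext iota_val793
    rw [this]
    refine continuous_pi fun i => continuous_pi fun j => ?_
    have h1 : Continuous fun p : Adl K × (Adl K)ˣ × (Adl K)ˣ => (p.2.1 : Adl K) :=
      Units.continuous_val.comp (continuous_fst.comp continuous_snd)
    have h2 : Continuous fun p : Adl K × (Adl K)ˣ × (Adl K)ˣ => (p.2.2 : Adl K) :=
      Units.continuous_val.comp (continuous_snd.comp continuous_snd)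
    fin_cases i <;> fin_cases j
    · exact h1.mul h2
    · exact continuous_fst.mul h2
    · exact continuous_const
    · exact h2
  · have : (fun p : Adl K × (Adl K)ˣ × (Adl K)ˣ =>
        (((iota57 K p)⁻¹ : G K) : Matrix (Fin 2) (Fin 2) (Adl K)))
        = fun p => !![((p.2.1⁻¹ : (Adl K)ˣ) : Adl K) * ((p.2.2⁻¹ : (Adl K)ˣ) : Adl K),
            -(p.1 * ((p.2.1⁻¹ : (Adl K)ˣ) : Adl K) * ((p.2.2⁻¹ : (Adl K)ˣ) : Adl K));
          0, ((p.2.2⁻¹ : (Adl K)ˣ) : Adl K)] := funext iota_inv_val793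
    rw [this]
    refine continuous_pi fun i => continuous_pi fun j => ?_
    have h1 : Continuous fun p : Adl K × (Adl K)ˣ × (Adl K)ˣ =>
        ((p.2.1⁻¹ : (Adl K)ˣ) : Adl K) :=
      Units.continuous_coe_inv.comp (continuous_fst.comp continuous_snd)
    have h2 : Continuous fun p : Adl K × (Adl K)ˣ × (Adl K)ˣ =>
        ((p.2.2⁻¹ : (Adl K)ˣ) : Adl K) :=
      Units.continuous_coe_inv.comp (continuous_snd.comp continuous_snd)
    fin_cases i <;> fin_cases j
    · exact h1.mul h2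
    · exact ((continuous_fst.mul h1).mul h2).neg
    · exact continuous_const
    · exact h2

/-! ## Upper triangular elements -/

/-- The upper triangular elements of `GL₂(𝔸_K)`. -/
def upSet793 (K : Type) [Field K] [NumberField K] : Set (G K) :=
  {g | (g : Matrix (Fin 2) (Fin 2) (Adl K)) 1 0 = 0}

lemma isClosed_upSet793 : IsClosed (upSet793 K) := by
  have : T2Space (Adl K) := t2Space_adeleRing_h11 K
  exact isClosed_eq (continuous_entry793 1 0) continuous_const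

lemma iota_mem_upSet793 (p : Adl K × (Adl K)ˣ × (Adl K)ˣ) : iota57 K p ∈ upSet793 K := by
  show ((iota57 K p : G K) : Matrix (Fin 2) (Fin 2) (Adl K)) 1 0 = 0
  rw [iota_val793]
  rfl

/-- The relations between the entries of an upper triangular `g` and of `g⁻¹`. -/
lemma up_entries793 {g : G K} (hg : g ∈ upSet793 K) :
    (g : Matrix (Fin 2) (Fin 2) (Adl K)) 1 1
        * ((g⁻¹ : G K) : Matrix (Fin 2) (Fin 2) (Adl K)) 1 1 = 1 ∧
      (g : Matrix (Fin 2) (Fin 2) (Adl K)) 0 0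
        * ((g⁻¹ : G K) : Matrix (Fin 2) (Fin 2) (Adl K)) 0 0 = 1 := by
  have hg10 : (g : Matrix (Fin 2) (Fin 2) (Adl K)) 1 0 = 0 := hg
  have h1 : (g : Matrix (Fin 2) (Fin 2) (Adl K)) * ((g⁻¹ : G K) : Matrix (Fin 2) (Fin 2) (Adl K))
      = 1 := by
    rw [← Units.val_mul, mul_inv_cancel, Units.val_one]
  have h2 : ((g⁻¹ : G K) : Matrix (Fin 2) (Fin 2) (Adl K)) * (g : Matrix (Fin 2) (Fin 2) (Adl K))
      = 1 := by
    rw [← Units.val_mul, inv_mul_cancel, Units.val_one]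
  have e11 := congrFun (congrFun h1 1) 1
  rw [Matrix.mul_apply, Fin.sum_univ_two, hg10, zero_mul, zero_add, Matrix.one_apply_eq] at e11
  have f11 := congrFun (congrFun h2 1) 1
  rw [Matrix.mul_apply, Fin.sum_univ_two, Matrix.one_apply_eq] at f11
  have f10 := congrFun (congrFun h2 1) 0
  rw [Matrix.mul_apply, Fin.sum_univ_two, hg10, mul_zero, add_zero,
    Matrix.one_apply_ne (by decide)] at f10
  -- `(g⁻¹) 1 0 = 0`
  have e10 := congrFun (congrFun h1 1) 0
  rw [Matrix.mul_apply, Fin.sum_univ_two, hg10, zero_mul, zero_add,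
    Matrix.one_apply_ne (by decide)] at e10
  have hi10 : ((g⁻¹ : G K) : Matrix (Fin 2) (Fin 2) (Adl K)) 1 0 = 0 := by
    have := congrArg (fun t => ((g⁻¹ : G K) : Matrix (Fin 2) (Fin 2) (Adl K)) 1 1 * t) e10
    simp only [mul_zero] at this
    rw [← mul_assoc, mul_comm (((g⁻¹ : G K) : Matrix (Fin 2) (Fin 2) (Adl K)) 1 1), e11,
      one_mul] at this
    exact this
  have e00 := congrFun (congrFun h1 0) 0
  rw [Matrix.mul_apply, Fin.sum_univ_two, hi10, mul_zero, add_zero, Matrix.one_apply_eq] at e00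
  exact ⟨e11, e00⟩

/-- The Borel coordinates of an upper triangular element. -/
def coord793 (g : upSet793 K) : Adl K × (Adl K)ˣ × (Adl K)ˣ :=
  (((g : G K) : Matrix (Fin 2) (Fin 2) (Adl K)) 0 1
      * (((g : G K)⁻¹ : G K) : Matrix (Fin 2) (Fin 2) (Adl K)) 1 1,
    ⟨((g : G K) : Matrix (Fin 2) (Fin 2) (Adl K)) 0 0
        * (((g : G K)⁻¹ : G K) : Matrix (Fin 2) (Fin 2) (Adl K)) 1 1,
      ((g : G K) : Matrix (Fin 2) (Fin 2) (Adl K)) 1 1
        * (((g : G K)⁻¹ : G K) : Matrix (Fin 2) (Fin 2) (Adl K)) 0 0,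
      by
        have h := up_entries793 g.2
        linear_combination
          (((g : G K) : Matrix (Fin 2) (Fin 2) (Adl K)) 1 1
            * (((g : G K)⁻¹ : G K) : Matrix (Fin 2) (Fin 2) (Adl K)) 1 1) * h.2 + h.1,
      by
        have h := up_entries793 g.2
        linear_combination
          (((g : G K) : Matrix (Fin 2) (Fin 2) (Adl K)) 1 1
            * (((g : G K)⁻¹ : G K) : Matrix (Fin 2) (Fin 2) (Adl K)) 1 1) * h.2 + h.1⟩,
    ⟨((g : G K) : Matrix (Fin 2) (Fin 2) (Adl K)) 1 1,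
      (((g : G K)⁻¹ : G K) : Matrix (Fin 2) (Fin 2) (Adl K)) 1 1,
      (up_entries793 g.2).1,
      by rw [mul_comm]; exact (up_entries793 g.2).1⟩)

lemma continuous_coord793 : Continuous (coord793 (K := K)) := by
  have c (i j : Fin 2) : Continuous fun g : upSet793 K =>
      ((g : G K) : Matrix (Fin 2) (Fin 2) (Adl K)) i j :=
    (continuous_entry793 i j).comp continuous_subtype_val
  have ci (i j : Fin 2) : Continuous fun g : upSet793 K =>
      (((g : G K)⁻¹ : G K) : Matrix (Fin 2) (Fin 2) (Adl K)) i j :=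
    (continuous_entry_inv793 i j).comp continuous_subtype_val
  refine Continuous.prodMk ((c 0 1).mul (ci 1 1)) (Continuous.prodMk ?_ ?_)
  · rw [Units.continuous_iff]
    exact ⟨(c 0 0).mul (ci 1 1), (c 1 1).mul (ci 0 0)⟩
  · rw [Units.continuous_iff]
    exact ⟨c 1 1, ci 1 1⟩

lemma coord_iota793 (p : Adl K × (Adl K)ˣ × (Adl K)ˣ) :
    coord793 ⟨iota57 K p, iota_mem_upSet793 p⟩ = p := by
  have hz : ((p.2.2 : (Adl K)ˣ) : Adl K) * ((p.2.2⁻¹ : (Adl K)ˣ) : Adl K) = 1 :=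
    Units.mul_inv _
  refine Prod.ext ?_ (Prod.ext ?_ ?_)
  · show ((iota57 K p : G K) : Matrix (Fin 2) (Fin 2) (Adl K)) 0 1
        * (((iota57 K p)⁻¹ : G K) : Matrix (Fin 2) (Fin 2) (Adl K)) 1 1 = p.1
    rw [iota_val793, iota_inv_val793]
    show p.1 * (p.2.2 : Adl K) * ((p.2.2⁻¹ : (Adl K)ˣ) : Adl K) = p.1
    rw [mul_assoc, hz, mul_one]
  · apply Units.ext
    show ((iota57 K p : G K) : Matrix (Fin 2) (Fin 2) (Adl K)) 0 0
        * (((iota57 K p)⁻¹ : G K) : Matrix (Fin 2) (Fin 2) (Adl K)) 1 1 = (p.2.1 : Adl K)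
    rw [iota_val793, iota_inv_val793]
    show (p.2.1 : Adl K) * (p.2.2 : Adl K) * ((p.2.2⁻¹ : (Adl K)ˣ) : Adl K) = (p.2.1 : Adl K)
    rw [mul_assoc, hz, mul_one]
  · apply Units.ext
    show ((iota57 K p : G K) : Matrix (Fin 2) (Fin 2) (Adl K)) 1 1 = (p.2.2 : Adl K)
    rw [iota_val793]
    rfl

/-- Every upper triangular element is `ι(p)`. -/
lemma iota_coord793 (g : upSet793 K) : iota57 K (coord793 g) = (g : G K) := by
  have h := up_entries793 g.2
  have hg10 : ((g : G K) : Matrix (Fin 2) (Fin 2) (Adl K)) 1 0 = 0 := g.2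
  apply Units.ext
  rw [iota_val793]
  ext i j
  fin_cases i <;> fin_cases j
  · show ((g : G K) : Matrix (Fin 2) (Fin 2) (Adl K)) 0 0
        * (((g : G K)⁻¹ : G K) : Matrix (Fin 2) (Fin 2) (Adl K)) 1 1
        * ((g : G K) : Matrix (Fin 2) (Fin 2) (Adl K)) 1 1
        = ((g : G K) : Matrix (Fin 2) (Fin 2) (Adl K)) 0 0
    linear_combination (((g : G K) : Matrix (Fin 2) (Fin 2) (Adl K)) 0 0) * h.1
  · show ((g : G K) : Matrix (Fin 2) (Fin 2) (Adl K)) 0 1
        * (((g : G K)⁻¹ : G K) : Matrix (Fin 2) (Fin 2) (Adl K)) 1 1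
        * ((g : G K) : Matrix (Fin 2) (Fin 2) (Adl K)) 1 1
        = ((g : G K) : Matrix (Fin 2) (Fin 2) (Adl K)) 0 1
    linear_combination (((g : G K) : Matrix (Fin 2) (Fin 2) (Adl K)) 0 1) * h.1
  · exact hg10.symm
  · rfl

lemma exists_iota793 {g : G K} (hg : g ∈ upSet793 K) :
    ∃ p : Adl K × (Adl K)ˣ × (Adl K)ˣ, iota57 K p = g :=
  ⟨coord793 ⟨g, hg⟩, iota_coord793 ⟨g, hg⟩⟩

/-- **The preimage of a compact set under `ι` is compact.** -/
theorem isCompact_iota_preimage793 {C : Set (G K)} (hC : IsCompact C) :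
    IsCompact ((iota57 K) ⁻¹' C) := by
  have : T2Space (G K) := t2Space_GL2_adeleRing_h11 K
  have hemb : IsClosedEmbedding (Subtype.val : upSet793 K → G K) :=
    isClosed_upSet793.isClosedEmbedding_subtypeVal
  have h1 : IsCompact ((Subtype.val : upSet793 K → G K) ⁻¹' C) := hemb.isCompact_preimage hC
  have h2 : IsCompact (coord793 '' ((Subtype.val : upSet793 K → G K) ⁻¹' C)) :=
    h1.image continuous_coord793
  have h3 : (iota57 K) ⁻¹' C = coord793 '' ((Subtype.val : upSet793 K → G K) ⁻¹' C) := by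
    ext p
    constructor
    · intro hp
      exact ⟨⟨iota57 K p, iota_mem_upSet793 p⟩, hp, coord_iota793 p⟩
    · rintro ⟨g, hg, rfl⟩
      show iota57 K (coord793 g) ∈ C
      rw [iota_coord793]
      exact hg
  rw [h3]
  exact h2

/-! ## The cell contains `G_∞ × U(𝔪)_f` -/

/-- **`G_∞ × U(𝔪)_f ⊆ ι(P) 𝒰(𝔪)`** (Iwasawa decomposition at the infinite places). -/
theorem inU0_subset_cell793 {𝔪 : Ideal (𝓞 K)} {g : G K} (hg : InU057 𝔪 g) :
    ∃ (p : Adl K × (Adl K)ˣ × (Adl K)ˣ) (κ : G K), IsCpt290 𝔪 κ ∧ g = iota57 K p * κ := by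
  choose kw hkw1 hkw2 hkw3 using fun w : InfinitePlace K => iwasawaInf793 w (glInf793 w g)
  have hint := fun v => inU0_int793 hg v
  have h1 : ∀ v i j, ((glFin793 v g : GL (Fin 2) (v.adicCompletion K)) :
      Matrix (Fin 2) (Fin 2) (v.adicCompletion K)) i j ∈ v.adicCompletionIntegers K :=
    fun v i j => (hint v).1 i j
  have h2 : ∀ v i j, (((glFin793 v g)⁻¹ : GL (Fin 2) (v.adicCompletion K)) :
      Matrix (Fin 2) (Fin 2) (v.adicCompletion K)) i j ∈ v.adicCompletionIntegers K := by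
    intro v i j
    have := (hint v).2 i j
    rw [finComp_eq793, map_inv] at this
    exact this
  set κ : G K := glMk793 kw (fun v => glFin793 v g) h1 h2 with hκ
  have hfin : ∀ v, glFin793 v κ = glFin793 v g := fun v => by rw [hκ, glFin793_glMk]
  have hinf : ∀ w, glInf793 w κ = kw w := fun w => by rw [hκ, glInf793_glMk]
  have hκcpt : IsCpt290 𝔪 κ := by
    refine ⟨fun v i j => ⟨?_, ?_⟩, fun w => ?_⟩
    · have := (hg v i j).1
      rw [finComp_eq793] at this ⊢
      rw [hfin v]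
      exact this
    · have := (hg v i j).2
      rw [finComp_eq793, map_inv] at this ⊢
      rw [hfin v]
      exact this
    · rw [infComp_eq793, hinf w]
      exact ⟨hkw2 w, hkw3 w⟩
  have hb : g * κ⁻¹ ∈ upSet793 K := by
    show ((g * κ⁻¹ : G K) : Matrix (Fin 2) (Fin 2) (Adl K)) 1 0 = 0
    refine adl_ext793 (fun w => ?_) (fun v => ?_)
    · have e1 : glInf793 w (g * κ⁻¹) = glInf793 w g * (kw w)⁻¹ := by
        rw [map_mul, map_inv, hinf w]
      have e2 : projInf793 w (((g * κ⁻¹ : G K) : Matrix (Fin 2) (Fin 2) (Adl K)) 1 0)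
          = ((glInf793 w (g * κ⁻¹) : GL (Fin 2) w.Completion) :
              Matrix (Fin 2) (Fin 2) w.Completion) 1 0 := rfl
      rw [e2, e1, hkw1 w, map_zero]
    · have e1 : glFin793 v (g * κ⁻¹) = 1 := by
        rw [map_mul, map_inv, hfin v, mul_inv_cancel]
      have e2 : projFin793 v (((g * κ⁻¹ : G K) : Matrix (Fin 2) (Fin 2) (Adl K)) 1 0)
          = ((glFin793 v (g * κ⁻¹) : GL (Fin 2) (v.adicCompletion K)) :
              Matrix (Fin 2) (Fin 2) (v.adicCompletion K)) 1 0 := rfl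
      rw [e2, e1, map_zero, Units.val_one, Matrix.one_apply_ne (by decide)]
  obtain ⟨p, hp⟩ := exists_iota793 hb
  exact ⟨p, κ, hκcpt, by rw [hp]; group⟩

end Fermat.Agent.LT.T7.H793

end
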