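import Mathlib
import Fermat.Agent.LT.T7.H793.ThetaBorel

/-!
# Row LT, tower T7, leaf T7.14.6a-C.4 `H290.ThetaSetC290` (helper793, OFF-MAIN), part 3

On `LT/T7/H290/CoreSpec.lean` (helper290@706aa9d8d, byte-identical copy, sha256 7937517f...).
No hole, nothing assumed.

    thetaSetC793 (K) : Fermat.Agent.LT.T7.Rigid.H290.ThetaSetC290 K

`𝒱 = 𝒱₀ 𝒰(𝔪) ∩ Ω`, `𝒱₀` a compact neighbourhood of `1`, `𝒰(𝔪)` the compact group of
`ThetaCpt.lean`, `Ω = B 𝒰(𝔪)` (`B` = upper triangular elements = range of `ι`): `𝒱` is closed,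
contained in the compact set `𝒱₀ 𝒰(𝔪)`, right invariant under `𝒰(𝔪)`, and contains the open set
`int 𝒱₀ ∩ (G_∞ × U(𝔪)_f)`.  The preimage of a compact set under `ι` is compact
(`isCompact_iota_preimage793`), so `|y|` is bounded on `𝒱` and `W = {q : ι(q)⁻¹ ∈ 𝒱}` lies in a
compact box, of finite measure for `λ = |y|⁻¹ dν dτ dτ`; `W` contains an open box around
`(0, 1, 1)` on which `|y| < 2`, of positive measure.
-/

set_option autoImplicit false
set_option linter.style.haveILetI false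

open IsDedekindDomain NumberField Topology MeasureTheory Filter
open scoped ENNReal Pointwise
open Fermat.Agent.LT.H556.A0 Fermat.Agent.LT.H11.LC Fermat.Agent.LT.H11.SC

noncomputable section

namespace Fermat.Agent.LT.T7.H793

open Fermat.Agent.LT.T1 Fermat.Agent.LT.T1.H793 Fermat.Agent.LT.T3.H57
open Fermat.Agent.LT.T7.Rigid Fermat.Agent.LT.T7.Rigid.H290 Fermat.Agent.LT.T7.H57

attribute [local instance] Fermat.Agent.LT.T5.instMeasurableSpaceG

/-- The Borel σ-algebra of the adeles (local instance of this file). -/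
local instance instMA793 (K : Type) [Field K] [NumberField K] : MeasurableSpace (Adl K) :=
  borel (Adl K)

/-- The Borel σ-algebra of the ideles (local instance of this file). -/
local instance instMI793 (K : Type) [Field K] [NumberField K] : MeasurableSpace (Adl K)ˣ :=
  borel (Adl K)ˣ

variable {K : Type} [Field K] [NumberField K]

/-- `ι(0, 1, 1) = 1`. -/
lemma iota_one793 : iota57 K ((0 : Adl K), (1 : (Adl K)ˣ), (1 : (Adl K)ˣ)) = 1 := by
  apply Units.ext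
  rw [iota_val793]
  ext i j
  fin_cases i <;> fin_cases j <;> simp

/-- The module of `1` is `1`. -/
lemma nrm_one793 (hT1 : T1Out K) : nrm57 K 1 = 1 := by
  have hpos : 0 < nrm57 K 1 := hT1.adNorm.1 1
  have hmul : nrm57 K (1 * 1) = nrm57 K 1 * nrm57 K 1 := hT1.adNorm.2.1 1 1
  rw [mul_one] at hmul
  have : nrm57 K 1 * (nrm57 K 1 - 1) = 0 := by linear_combination -hmul
  rcases mul_eq_zero.mp this with h | h
  · exact absurd h hpos.ne'
  · linarith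

/-- **T7.14.6a-C.4 = `H290.ThetaSetC290`**, verbatim. -/
theorem thetaSetC793 (K : Type) [Field K] [NumberField K] : ThetaSetC290 K := by
  intro hK hT1 μ hμ ν hν τ hτ 𝔪 h𝔪
  haveI := hμ
  haveI := hν
  haveI := hτ
  haveI : T2Space (Adl K) := t2Space_adeleRing_h11 K
  haveI : T2Space (G K) := t2Space_GL2_adeleRing_h11 K
  haveI : LocallyCompactSpace (G K) := locallyCompactSpace_GL2_adeleRing_h11 K
  haveI : LocallyCompactSpace (Adl K) := locallyCompactSpace_adeleRing_h11 K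
  haveI : SecondCountableTopology (Adl K) := secondCountableTopology_adeleRing_h11 K
  haveI : SecondCountableTopology (Adl K)ˣ := secondCountableTopology_units_h11 (Adl K)
  haveI : LocallyCompactSpace (Adl K)ˣ :=
    Units.isClosedEmbedding_embedProduct.locallyCompactSpace
  haveI : BorelSpace (G K) := ⟨rfl⟩
  haveI : BorelSpace (Adl K) := ⟨rfl⟩
  haveI : BorelSpace (Adl K)ˣ := ⟨rfl⟩
  haveI : T2Space (Adl K)ˣ := inferInstance
  haveI : SigmaFinite τ := inferInstance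
  haveI : IsTopologicalGroup (G K) := inferInstance
  have hn : Continuous (nrm57 K) := hT1.adNorm.2.2.2
  have hnpos : ∀ y : (Adl K)ˣ, 0 < nrm57 K y := hT1.adNorm.1
  -- the sets
  obtain ⟨V₀, hV₀c, hV₀n⟩ := exists_compact_mem_nhds (1 : G K)
  set U : Set (G K) := cptSet793 (K := K) 𝔪 with hU
  have hUc : IsCompact U := isCompact_cptSet793 𝔪
  have hU1 : (1 : G K) ∈ U := isCpt_one793 𝔪
  have hUmul : ∀ a ∈ U, ∀ b ∈ U, a * b ∈ U := fun a ha b hb => isCpt_mul793 ha hb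
  have hUinv : ∀ a ∈ U, a⁻¹ ∈ U := fun a ha => isCpt_inv793 ha
  set Kc : Set (G K) := V₀ * U with hKc
  have hKcc : IsCompact Kc := hV₀c.mul hUc
  set Ω : Set (G K) := upSet793 K * U with hΩ
  have hΩcl : IsClosed Ω := isClosed_upSet793.mul_right_of_isCompact hUc
  have hKcU : ∀ a ∈ Kc, ∀ b ∈ U, a * b ∈ Kc := by
    rintro _ ⟨v, hv, u, hu, rfl⟩ b hb
    exact ⟨v, hv, u * b, hUmul u hu b hb, by simp only [mul_assoc]⟩
  have hΩU : ∀ a ∈ Ω, ∀ b ∈ U, a * b ∈ Ω := by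
    rintro _ ⟨v, hv, u, hu, rfl⟩ b hb
    exact ⟨v, hv, u * b, hUmul u hu b hb, by simp only [mul_assoc]⟩
  -- the open set inside
  set O : Set (G K) := interior V₀ ∩ {x : G K | InU057 𝔪 x} with hO
  have hOo : IsOpen O := isOpen_interior.inter (isOpen_inU057 𝔪 h𝔪)
  have hO1 : (1 : G K) ∈ O := ⟨mem_interior_iff_mem_nhds.mpr hV₀n, inU0_one793 𝔪⟩
  have hOV : O ⊆ Kc ∩ Ω := by
    rintro g ⟨hg1, hg2⟩
    refine ⟨⟨g, interior_subset hg1, 1, hU1, mul_one g⟩, ?_⟩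
    obtain ⟨p, κ, hκ, hgp⟩ := inU0_subset_cell793 hg2
    exact ⟨iota57 K p, iota_mem_upSet793 p, κ, hκ, hgp.symm⟩
  -- the bound for `|y|`
  have hpre : IsCompact ((iota57 K) ⁻¹' Kc) := isCompact_iota_preimage793 hKcc
  have hy : Continuous fun p : Adl K × (Adl K)ˣ × (Adl K)ˣ => nrm57 K p.2.1 :=
    hn.comp (continuous_fst.comp continuous_snd)
  obtain ⟨M, hM⟩ := (hpre.image hy).bddAbove
  -- the box containing `W`
  have hKci : IsCompact (Kc⁻¹) := hKcc.inv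
  set C : Set (Adl K × (Adl K)ˣ × (Adl K)ˣ) := (iota57 K) ⁻¹' (Kc⁻¹) with hC
  have hCc : IsCompact C := isCompact_iota_preimage793 hKci
  set A : Set (Adl K) := Prod.fst '' C with hA
  set By : Set (Adl K)ˣ := (fun p : Adl K × (Adl K)ˣ × (Adl K)ˣ => p.2.1) '' C with hBy
  set Bz : Set (Adl K)ˣ := (fun p : Adl K × (Adl K)ˣ × (Adl K)ˣ => p.2.2) '' C with hBz
  have hAc : IsCompact A := hCc.image continuous_fst
  have hByc : IsCompact By := hCc.image (continuous_fst.comp continuous_snd)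
  have hBzc : IsCompact Bz := hCc.image (continuous_snd.comp continuous_snd)
  have hCbox : C ⊆ A ×ˢ (By ×ˢ Bz) := fun p hp =>
    ⟨⟨p, hp, rfl⟩, ⟨p, hp, rfl⟩, ⟨p, hp, rfl⟩⟩
  have hinvc : Continuous fun y : (Adl K)ˣ => (nrm57 K y)⁻¹ :=
    hn.inv₀ fun y => (hnpos y).ne'
  obtain ⟨M', hM'⟩ := (hByc.image hinvc).bddAbove
  -- the open box inside `W`
  have hιinv : Continuous fun q : Adl K × (Adl K)ˣ × (Adl K)ˣ => (iota57 K q)⁻¹ :=
    continuous_iota793.inv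
  set W₀ : Set (Adl K × (Adl K)ˣ × (Adl K)ˣ) :=
    (fun q => (iota57 K q)⁻¹) ⁻¹' O with hW₀
  have hW₀o : IsOpen W₀ := hOo.preimage hιinv
  have hW₀1 : ((0 : Adl K), (1 : (Adl K)ˣ), (1 : (Adl K)ˣ)) ∈ W₀ := by
    show (iota57 K ((0 : Adl K), (1 : (Adl K)ˣ), (1 : (Adl K)ˣ)))⁻¹ ∈ O
    rw [iota_one793, inv_one]
    exact hO1
  obtain ⟨A₀, T₀, hA₀o, hT₀o, hA₀1, hT₀1, hAT⟩ := isOpen_prod_iff.mp hW₀o _ _ hW₀1
  obtain ⟨B₀, C₀, hB₀o, hC₀o, hB₀1, hC₀1, hBC⟩ := isOpen_prod_iff.mp hT₀o _ _ hT₀1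
  set B₁ : Set (Adl K)ˣ := B₀ ∩ {y | nrm57 K y < 2} with hB₁
  have hB₁o : IsOpen B₁ := hB₀o.inter (isOpen_lt hn continuous_const)
  have hB₁1 : (1 : (Adl K)ˣ) ∈ B₁ := ⟨hB₀1, by
    show nrm57 K 1 < 2
    rw [nrm_one793 hT1]
    norm_num⟩
  have hbox₀ : A₀ ×ˢ (B₁ ×ˢ C₀) ⊆ W₀ := by
    rintro ⟨x, y, z⟩ ⟨hx, hy, hz⟩
    exact hAT ⟨hx, hBC ⟨hy.1, hz⟩⟩
  -- the set `V`
  refine ⟨Kc ∩ Ω, (hKcc.isClosed.inter hΩcl).measurableSet, ?_, ?_, ?_, ?_, ?_, ?_, ?_⟩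
  · rintro g ⟨-, b, hb, κ, hκ, rfl⟩
    obtain ⟨p, hp⟩ := exists_iota793 hb
    exact ⟨p, κ, hκ, by rw [hp]⟩
  · rintro g ⟨hg1, hg2⟩ κ hκ
    exact ⟨hKcU g hg1 κ hκ, hΩU g hg2 κ hκ⟩
  · exact ((hOo.measure_pos μ ⟨1, hO1⟩).trans_le (measure_mono hOV)).ne'
  · exact ((measure_mono Set.inter_subset_left).trans_lt hKcc.measure_lt_top).ne
  · refine ⟨M, fun p κ hκ hV => ?_⟩
    have h1 : iota57 K p ∈ Kc := by
      have := hKcU _ hV.1 κ⁻¹ (hUinv κ hκ)
      rwa [mul_inv_cancel_right] at this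
    exact hM ⟨p, h1, rfl⟩
  · -- positivity
    have hle : lamB290 ν τ (A₀ ×ˢ (B₁ ×ˢ C₀)) ≤ lamB290 ν τ {q | (iota57 K q)⁻¹ ∈ Kc ∩ Ω} :=
      measure_mono fun q hq => hOV (hbox₀ hq)
    have hms : MeasurableSet (A₀ ×ˢ (B₁ ×ˢ C₀)) :=
      hA₀o.measurableSet.prod (hB₁o.measurableSet.prod hC₀o.measurableSet)
    have hm : (ν.prod (τ.prod τ)) (A₀ ×ˢ (B₁ ×ˢ C₀)) ≠ 0 := by
      rw [Measure.prod_prod, Measure.prod_prod]
      have h1 : 0 < ν A₀ := hA₀o.measure_pos ν ⟨0, hA₀1⟩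
      have h2 : 0 < τ B₁ := hB₁o.measure_pos τ ⟨1, hB₁1⟩
      have h3 : 0 < τ C₀ := hC₀o.measure_pos τ ⟨1, hC₀1⟩
      exact (ENNReal.mul_pos h1.ne' (ENNReal.mul_pos h2.ne' h3.ne').ne').ne'
    have hlow : ENNReal.ofReal (1 / 2) * (ν.prod (τ.prod τ)) (A₀ ×ˢ (B₁ ×ˢ C₀))
        ≤ lamB290 ν τ (A₀ ×ˢ (B₁ ×ˢ C₀)) := by
      unfold lamB290
      rw [withDensity_apply _ hms, ← setLIntegral_const]
      refine setLIntegral_mono' hms fun q hq => ?_
      have hq2 : nrm57 K q.2.1 < 2 := hq.2.1.2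
      have hq0 : 0 < nrm57 K q.2.1 := hnpos _
      apply ENNReal.ofReal_le_ofReal
      rw [one_div]
      exact (inv_le_inv₀ (by norm_num) hq0).mpr hq2.le |>.trans_eq rfl
    have hpos : 0 < ENNReal.ofReal (1 / 2) * (ν.prod (τ.prod τ)) (A₀ ×ˢ (B₁ ×ˢ C₀)) :=
      ENNReal.mul_pos (by simp) hm
    exact ((hpos.trans_le hlow).trans_le hle).ne'
  · -- finiteness
    have hsub : {q | (iota57 K q)⁻¹ ∈ Kc ∩ Ω} ⊆ A ×ˢ (By ×ˢ Bz) := by
      intro q hq
      apply hCbox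
      show iota57 K q ∈ Kc⁻¹
      rw [Set.mem_inv]
      exact hq.1
    have hms : MeasurableSet (A ×ˢ (By ×ˢ Bz)) :=
      hAc.isClosed.measurableSet.prod
        (hByc.isClosed.measurableSet.prod hBzc.isClosed.measurableSet)
    have hfin : (ν.prod (τ.prod τ)) (A ×ˢ (By ×ˢ Bz)) < ⊤ := by
      rw [Measure.prod_prod, Measure.prod_prod]
      exact ENNReal.mul_lt_top hAc.measure_lt_top
        (ENNReal.mul_lt_top hByc.measure_lt_top hBzc.measure_lt_top)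
    have hup : lamB290 ν τ (A ×ˢ (By ×ˢ Bz))
        ≤ ENNReal.ofReal M' * (ν.prod (τ.prod τ)) (A ×ˢ (By ×ˢ Bz)) := by
      unfold lamB290
      rw [withDensity_apply _ hms, ← setLIntegral_const]
      refine setLIntegral_mono' hms fun q hq => ?_
      apply ENNReal.ofReal_le_ofReal
      exact hM' ⟨q.2.1, hq.2.1, rfl⟩
    exact ((measure_mono hsub).trans_lt
      (hup.trans_lt (ENNReal.mul_lt_top ENNReal.ofReal_lt_top hfin))).ne

end Fermat.Agent.LT.T7.H793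

end
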