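import Mathlib
import Fermat.Agent.LT.T7.H439.OpUpLeaves2

/-!
# Row LT, tower T7, node T7.L2.2.N.S `SimpleC` (helper963), leaf S3 `ClassOpC`: THE CORE
# (helper793, OFF-MAIN, spare of registry row 2370)

The statement of `H963.ClassOpC` with the vocabulary of `T7/H963/Simple.lean` (`IsBadAt`,
`IsIwElt`, `IsIwDblSystem`) UNFOLDED, on the closure of the cut of helper281 (`OpUpSpec.lean`)
and its leaves proved by helper439 (`translEigC439`, `dblInvC439`), the Iwahori kit of helper340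
and the local kit of helper129.  The verbatim form is `T7/H793/ClassOp.lean`.

* bad part: `isEigFn_cosetOp281` of helper281 on `translEigC439`, `dblInvC439`;
* Iwahori part: for a full system `H` of representatives of `I h I / I` at `w = o j` and a local
  element `k` of the Iwahori subgroup, `x ↦ (the representative of k x)` is a permutation of `H`
  (`iwDblSum_perm793`); an element of the level group, resp. of the Iwahori subgroups along the
  orbit, is the product of its component at `w` (a local element of the Iwahori subgroup: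
  `w ∣ 𝔫`) and an element which is trivial at `w` and commutes with `H`.
-/

set_option autoImplicit false
set_option linter.unusedSectionVars false

open AutomorphicForm IsDedekindDomain NumberField MeasureTheory
open scoped ComplexConjugate
open Fermat.Agent.LT.H556 Fermat.Agent.LT.H556.A0 Fermat.Agent.LT.H129

noncomputable section

namespace Fermat.Agent.LT.T7.H793

open Fermat.Agent.LT Fermat.Agent.LT.T7 Fermat.Agent.LT.T7.H893 Fermat.Agent.LT.T7.H340
open Fermat.Agent.LT.T7.H281 Fermat.Agent.LT.T7.H439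

attribute [local instance] Fermat.Agent.LT.T5.instMeasurableSpaceG

variable {K : Type} [Field K] [NumberField K]

/-- The elements of a system of representatives of `I h I / I` are supported at `w`. -/
theorem isLocal_of_iwDbl793 {w : HeightOneSpectrum (𝓞 K)} {h : G K} {H : Finset (G K)}
    (hloc : IsLocalAtFin w h)
    (h1 : ∀ x ∈ H, ∃ k₁ k₂ : G K, (IsLocalAtFin w k₁ ∧ T5.InIwahori w k₁) ∧
      (IsLocalAtFin w k₂ ∧ T5.InIwahori w k₂) ∧ x = k₁ * h * k₂) {x : G K} (hx : x ∈ H) :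
    IsLocalAtFin w x := by
  obtain ⟨k₁, k₂, hk₁, hk₂, rfl⟩ := h1 x hx
  exact isLocalAtFin_mul129 (isLocalAtFin_mul129 hk₁.1 hloc) hk₂.1

/-- **The permutation.**  Left multiplication by a local element of the Iwahori subgroup
permutes the cosets of a full system of representatives of `I h I / I`. -/
theorem iwDblSum_perm793 {w : HeightOneSpectrum (𝓞 K)} {h : G K} {H : Finset (G K)}
    (hloc : IsLocalAtFin w h)
    (h1 : ∀ x ∈ H, ∃ k₁ k₂ : G K, (IsLocalAtFin w k₁ ∧ T5.InIwahori w k₁) ∧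
      (IsLocalAtFin w k₂ ∧ T5.InIwahori w k₂) ∧ x = k₁ * h * k₂)
    (h2 : ∀ x ∈ H, ∀ x' ∈ H, x ≠ x' → ¬ T5.InIwahori w (x⁻¹ * x'))
    (h3 : ∀ k : G K, (IsLocalAtFin w k ∧ T5.InIwahori w k) →
      ∃ x ∈ H, T5.InIwahori w (x⁻¹ * (k * h)))
    {ψ : G K → ℂ}
    (hψ : ∀ u : G K, IsLocalAtFin w u → T5.InIwahori w u → ∀ g : G K, ψ (g * u) = ψ g)
    {k : G K} (hk : IsLocalAtFin w k) (hkI : T5.InIwahori w k) (g : G K) :
    ∑ x ∈ H, ψ (g * (k * x)) = ∑ x ∈ H, ψ (g * x) := by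
  classical
  have key : ∀ x ∈ H, ∃ x' ∈ H, T5.InIwahori w (x'⁻¹ * (k * x)) := by
    intro x hx
    obtain ⟨k₁, k₂, hk₁, hk₂, rfl⟩ := h1 x hx
    obtain ⟨x', hx', hI⟩ := h3 (k * k₁) ⟨isLocalAtFin_mul129 hk hk₁.1, inIwahori_mul340 hkI hk₁.2⟩
    refine ⟨x', hx', ?_⟩
    have e : x'⁻¹ * (k * (k₁ * h * k₂)) = x'⁻¹ * (k * k₁ * h) * k₂ := by group
    rw [e]
    exact inIwahori_mul340 hI hk₂.2
  choose! σ hσ using key
  have hinj : Set.InjOn σ (H : Set (G K)) := by
    intro x hx y hy hxy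
    by_contra hne
    apply h2 x hx y hy hne
    have e : x⁻¹ * y = ((σ x)⁻¹ * (k * x))⁻¹ * ((σ y)⁻¹ * (k * y)) := by
      rw [hxy]; group
    rw [e]
    exact inIwahori_mul340 (inIwahori_inv340 (hσ x hx).2) (hσ y hy).2
  have himg : H.image σ = H := by
    apply Finset.eq_of_subset_of_card_le
    · intro y hy
      obtain ⟨x, hx, rfl⟩ := Finset.mem_image.mp hy
      exact (hσ x hx).1
    · rw [Finset.card_image_of_injOn hinj]
  have hterm : ∀ x ∈ H, ψ (g * (k * x)) = ψ (g * σ x) := by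
    intro x hx
    have hu : IsLocalAtFin w ((σ x)⁻¹ * (k * x)) :=
      isLocalAtFin_mul129 (isLocalAtFin_inv129 (isLocal_of_iwDbl793 hloc h1 (hσ x hx).1))
        (isLocalAtFin_mul129 hk (isLocal_of_iwDbl793 hloc h1 hx))
    have := hψ _ hu (hσ x hx).2 (g * σ x)
    rw [← this]
    congr 1
    group
  rw [Finset.sum_congr rfl hterm]
  conv_rhs => rw [← himg]
  rw [Finset.sum_image hinj]

/-- The sum over a system of `I h I / I` at `w ∣ 𝔫` of a function which is right invariant under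
`U(𝔫)` and under the local elements of the Iwahori subgroup at `w` is right invariant under
`U(𝔫)`. -/
theorem level_inv_iwDbl793 {𝔫 : Ideal (𝓞 K)} {w : HeightOneSpectrum (𝓞 K)}
    (hw : w.asIdeal ∣ 𝔫) {h : G K} {H : Finset (G K)}
    (hloc : IsLocalAtFin w h)
    (h1 : ∀ x ∈ H, ∃ k₁ k₂ : G K, (IsLocalAtFin w k₁ ∧ T5.InIwahori w k₁) ∧
      (IsLocalAtFin w k₂ ∧ T5.InIwahori w k₂) ∧ x = k₁ * h * k₂)
    (h2 : ∀ x ∈ H, ∀ x' ∈ H, x ≠ x' → ¬ T5.InIwahori w (x⁻¹ * x'))
    (h3 : ∀ k : G K, (IsLocalAtFin w k ∧ T5.InIwahori w k) →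
      ∃ x ∈ H, T5.InIwahori w (x⁻¹ * (k * h)))
    {ψ : G K → ℂ}
    (hl : ∀ k : G K, InLevelGroup 𝔫 k → ∀ g : G K, ψ (g * k) = ψ g)
    (hψ : ∀ u : G K, IsLocalAtFin w u → T5.InIwahori w u → ∀ g : G K, ψ (g * u) = ψ g)
    (k : G K) (hk : InLevelGroup 𝔫 k) (x : G K) :
    cosetOp H ψ (x * k) = cosetOp H ψ x := by
  classical
  unfold cosetOp
  set kw : G K := locFin129 w (finCompHom129 w k) with hkw
  set k' : G K := kw⁻¹ * k with hk'
  have hkwloc : IsLocalAtFin w kw := isLocalAtFin_locFin129 _ _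
  have hkwI : T5.InIwahori w kw := by
    rw [inIwahori_iff340, hkw, finCompHom129_locFin129, ← inIwahori_iff340]
    exact inIwahori_of_level439 hw hk
  have hk'w : finCompHom129 w k' = 1 := by
    rw [hk', map_mul, map_inv, hkw, finCompHom129_locFin129, inv_mul_cancel]
  have hk'v : ∀ v : HeightOneSpectrum (𝓞 K), v ≠ w →
      finCompHom129 v k' = finCompHom129 v k := by
    intro v hv
    rw [hk', map_mul, map_inv, hkw, finCompHom129_locFin129_of_ne _ _ hv, inv_one, one_mul]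
  have hk'inf : ∀ u : InfinitePlace K, TrivAtInf u k' := by
    intro u
    rw [trivAtInf_iff129, hk', map_mul, map_inv, hkw, infCompHom129_locFin129, inv_one,
      one_mul, ← trivAtInf_iff129]
    exact hk.1 u
  have hk'L : InLevelGroup 𝔫 k' := by
    refine ⟨hk'inf, fun v i j => ?_⟩
    by_cases hv : v = w
    · subst hv
      have e1 : finComp v k' = 1 := by
        rw [← coe_finCompHom129, hk'w]; rfl
      have e2 : finComp v k'⁻¹ = 1 := by
        rw [← coe_finCompHom129, map_inv, hk'w, inv_one]; rfl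
      rw [e1, e2, sub_self]
      exact ⟨zero_mem_ic439 𝔫 v, zero_mem_ic439 𝔫 v⟩
    · have e1 : finComp v k' = finComp v k := by
        rw [← coe_finCompHom129, hk'v v hv]; rfl
      have e2 : finComp v k'⁻¹ = finComp v k⁻¹ := by
        rw [← coe_finCompHom129, map_inv, hk'v v hv, ← map_inv]; rfl
      rw [e1, e2]
      exact hk.2 v i j
  have hkk : k = kw * k' := by rw [hk']; group
  have hterm : ∀ y ∈ H, ψ (x * k * y) = ψ (x * (kw * y)) := by
    intro y hy
    have hcomm : k' * y = y * k' :=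
      (commute_of_local340 (isLocal_of_iwDbl793 hloc h1 hy) hk'w).symm
    have e : x * k * y = x * (kw * y) * k' := by
      rw [hkk, mul_assoc, mul_assoc kw, hcomm]
      group
    rw [e]
    exact hl k' hk'L _
  rw [Finset.sum_congr rfl hterm]
  exact iwDblSum_perm793 hloc h1 h2 h3 hψ hkwloc hkwI x

/-- The sum over a system of `I h I / I` at `w = o j₀` of a function which is invariant under
the Iwahori subgroups along the orbit is invariant under the Iwahori subgroups along the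
orbit. -/
theorem isIwInv_iwDbl793 {l : ℕ} {o : ℕ → HeightOneSpectrum (𝓞 K)} {j₀ : ℕ} (hj₀ : j₀ < l)
    {h : G K} {H : Finset (G K)} (hloc : IsLocalAtFin (o j₀) h)
    (h1 : ∀ x ∈ H, ∃ k₁ k₂ : G K, (IsLocalAtFin (o j₀) k₁ ∧ T5.InIwahori (o j₀) k₁) ∧
      (IsLocalAtFin (o j₀) k₂ ∧ T5.InIwahori (o j₀) k₂) ∧ x = k₁ * h * k₂)
    (h2 : ∀ x ∈ H, ∀ x' ∈ H, x ≠ x' → ¬ T5.InIwahori (o j₀) (x⁻¹ * x'))
    (h3 : ∀ k : G K, (IsLocalAtFin (o j₀) k ∧ T5.InIwahori (o j₀) k) →
      ∃ x ∈ H, T5.InIwahori (o j₀) (x⁻¹ * (k * h)))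
    {ψ : G K → ℂ} (hψ : IsIwInv l o ψ) : IsIwInv l o (cosetOp H ψ) := by
  classical
  intro k hkinf hkout hkI x
  unfold cosetOp
  set kw : G K := locFin129 (o j₀) (finCompHom129 (o j₀) k) with hkw
  set k' : G K := kw⁻¹ * k with hk'
  have hkwloc : IsLocalAtFin (o j₀) kw := isLocalAtFin_locFin129 _ _
  have hkwI : T5.InIwahori (o j₀) kw := by
    rw [inIwahori_iff340, hkw, finCompHom129_locFin129, ← inIwahori_iff340]
    exact hkI j₀ hj₀
  have hk'w : finCompHom129 (o j₀) k' = 1 := by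
    rw [hk', map_mul, map_inv, hkw, finCompHom129_locFin129, inv_mul_cancel]
  have hk'v : ∀ v : HeightOneSpectrum (𝓞 K), v ≠ o j₀ →
      finCompHom129 v k' = finCompHom129 v k := by
    intro v hv
    rw [hk', map_mul, map_inv, hkw, finCompHom129_locFin129_of_ne _ _ hv, inv_one, one_mul]
  have hk'inf : ∀ u : InfinitePlace K, TrivAtInf u k' := by
    intro u
    rw [trivAtInf_iff129, hk', map_mul, map_inv, hkw, infCompHom129_locFin129, inv_one,
      one_mul, ← trivAtInf_iff129]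
    exact hkinf u
  have hk'out : ∀ v : HeightOneSpectrum (𝓞 K), (∀ j < l, v ≠ o j) → TrivAtFin v k' := by
    intro v hv
    rw [trivAtFin_iff129, hk'v v (hv j₀ hj₀), ← trivAtFin_iff129]
    exact hkout v hv
  have hk'I : ∀ j < l, T5.InIwahori (o j) k' := by
    intro j hj
    by_cases hjo : o j = o j₀
    · rw [hjo, inIwahori_iff340, hk'w]; exact isIwG340_one
    · rw [inIwahori_iff340, hk'v _ hjo, ← inIwahori_iff340]
      exact hkI j hj
  have hkk : k = kw * k' := by rw [hk']; group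
  have hterm : ∀ y ∈ H, ψ (x * k * y) = ψ (x * (kw * y)) := by
    intro y hy
    have hcomm : k' * y = y * k' :=
      (commute_of_local340 (isLocal_of_iwDbl793 hloc h1 hy) hk'w).symm
    have e : x * k * y = x * (kw * y) * k' := by
      rw [hkk, mul_assoc, mul_assoc kw, hcomm]
      group
    rw [e]
    exact hψ k' hk'inf hk'out hk'I _
  rw [Finset.sum_congr rfl hterm]
  exact iwDblSum_perm793 hloc h1 h2 h3
    (fun u hu huI g => isIwInv_local340 hψ hj₀ u hu huI g) hkwloc hkwI x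

/-- **THE CORE of `H963.ClassOpC`** (vocabulary of `Simple.lean` unfolded). -/
theorem classOp_core793 (𝔫 : Ideal (𝓞 K)) (r : G K) (l : ℕ) (o : ℕ → HeightOneSpectrum (𝓞 K))
    (C : EigData K) (hr : T5.IsRayGen r) (ho : ∀ j < l, (o j).asIdeal ∣ 𝔫)
    (ψ : G K → ℂ) (hψ : IsEigFn 𝔫 r l o ψ C) :
    (∀ (g : G K) (H : Finset (G K)),
      ((∀ w : InfinitePlace K, TrivAtInf w g) ∧
        ∀ v : HeightOneSpectrum (𝓞 K), (¬ v.asIdeal ∣ 𝔫 ∨ ∃ j < l, v = o j) → TrivAtFin v g) →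
      IsDblCosetSystem 𝔫 g H → IsEigFn 𝔫 r l o (cosetOp H ψ) C) ∧
    ∀ (j : ℕ) (h : G K) (H : Finset (G K)), j < l → IsLocalAtFin (o j) h →
      ((∀ x ∈ H, ∃ k₁ k₂ : G K, (IsLocalAtFin (o j) k₁ ∧ T5.InIwahori (o j) k₁) ∧
          (IsLocalAtFin (o j) k₂ ∧ T5.InIwahori (o j) k₂) ∧ x = k₁ * h * k₂) ∧
        (∀ x ∈ H, ∀ x' ∈ H, x ≠ x' → ¬ T5.InIwahori (o j) (x⁻¹ * x')) ∧
        ∀ k : G K, (IsLocalAtFin (o j) k ∧ T5.InIwahori (o j) k) →
          ∃ x ∈ H, T5.InIwahori (o j) (x⁻¹ * (k * h))) →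
      IsEigFn 𝔫 r l o (cosetOp H ψ) C := by
  refine ⟨fun g H hg hH => ?_, fun j h H hj hloc hH => ?_⟩
  · exact isEigFn_cosetOp281 (translEigC439 K) (dblInvC439 K) hr ho hg.1 hg.2 hH hψ
  · obtain ⟨h1, h2, h3⟩ := hH
    have hR : IsRInv281 𝔫 (cosetOp H ψ) := fun u hu x =>
      level_inv_iwDbl793 (ho j hj) hloc h1 h2 h3 (isRInv_of_isEigFn281 hψ)
        (fun b hb hbI g => isIwInv_local340 hψ.inv.iw hj b hb hbI g) u hu x
    have hI : IsIwInv l o (cosetOp H ψ) := isIwInv_iwDbl793 hj hloc h1 h2 h3 hψ.inv.iw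
    rw [cosetOp_eq_translOp281] at hR hI ⊢
    exact translEigC439 K 𝔫 r l o hr H 1
      (fun t ht => isGood_of_local439 (ho j hj) (isLocal_of_iwDbl793 hloc h1 ht)) ψ C hψ hR hI

end Fermat.Agent.LT.T7.H793

end
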