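import Mathlib
import Fermat.Agent.LT.T7.H963.Simple
import Fermat.Agent.LT.T7.H793.ClassOpCore

/-!
# Row LT, tower T7, node T7.L2.2.N.S `SimpleC` (helper963), leaf S3 `ClassOpC`: VERBATIM
# (helper793, OFF-MAIN, spare of registry row 2370)

    classOpC793 (K) : H963.ClassOpC K

VERBATIM vs `T7/H963/Simple.lean` (helper963, sha256 1da7252d), unconditional.  The proof is
`classOp_core793` (`T7/H793/ClassOpCore.lean`): the vocabulary `IsBadAt`, `IsIwElt`,
`IsIwDblSystem` of `Simple.lean` unfolds to the hypotheses of the core.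
-/

set_option autoImplicit false

open AutomorphicForm IsDedekindDomain NumberField
open Fermat.Agent.LT.H556 Fermat.Agent.LT.H556.A0

noncomputable section

namespace Fermat.Agent.LT.T7.H793

open Fermat.Agent.LT Fermat.Agent.LT.T7

/-- **LEAF S3 = CLASS-OP**, verbatim: the class is stable under the Hecke operators at the bad
places and along the orbit. -/
theorem classOpC793 (K : Type) [Field K] [NumberField K] : H963.ClassOpC K := by
  intro 𝔫 r l o C _ hr ho ψ hψ
  obtain ⟨hA, hB⟩ := classOp_core793 𝔫 r l o C hr ho ψ hψ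
  exact ⟨fun g H hg hH => hA g H hg hH, fun j h H hj hloc hH => hB j h H hj hloc hH⟩

end Fermat.Agent.LT.T7.H793

end
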